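import Fermat.Agent.Ribet.H220.S2Level
import Fermat.Agent.A2.Mod.H13.S1
import Fermat.Agent.A2.Mod.H553.VzeroNe
import Fermat.Agent.A2.Mod.H31.Deg
import Fermat.Agent.A2.Mod.H753.IndInf
import Fermat.Agent.A2.Mod.H753.IndZero
import Fermat.Agent.A2.Mod.H751.Stau
import Fermat.Agent.A2.Alg.H348.ChartComp

/-!
# Row 38, WALL-p, (S2)-chain, leaf CUTLOC (helper459)

    theorem cutLoc : H220.CutLocStatement            (`Ribet/H220/S2Level.lean`, VERBATIM)

In the setting of A2's MOD (level `M * q`), for the chart `B = chartAlg y` of a coordinate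
`y ∈ {x, x⁻¹}` and the two cuts `p₁ = B ∩ w V∞`, `p₂ = B ∩ w V₀`: `V∞ = B_{p₁}`, `V₀ = B_{p₂}`
(elementwise: every `f ∈ V∞` is `a / b` with `a, b ∈ B`, `b ∉ p₁`; same for `V₀`, `p₂`).

Proof.  Abstract core `cutLoc_core459` (Mathlib + `A2.H48.IsUnif`): `B ⊆ V`, `ϖ` a uniformiser of
`V`, every nonzero element of `V` is `ϖ ^ k` times a unit of `V`, `p₁ = B ∩ ϖ V`,
`p₁ ⊓ p₂ = (ϖ)`, `p₂ ⊄ p₁`, `F = Frac B`.  By induction on `k`: `b ∈ B ∩ ϖ^k V` has a multiple
`c b ∈ ϖ^k B` with `c ∈ B` a unit of `V` (multiply by `c₀ ∈ p₂ ∖ p₁`: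
`c₀ b ∈ p₁ ⊓ p₂ = ϖ B`).  For `f ∈ V` write `f d = a'` with `d, a' ∈ B`, `d = ϖ^k · unit`;
clear `ϖ^k` from `d` and from `a'`.
Concrete inputs from main: S1 (`H13.s1`, unconditional), L2 (`H553.vinfBasic`),
`H553.exists_const_mul_unit` (value group of `V∞` = value group of `R_E`), L8 (`H31.deg`),
`H13.isGaussOver_xE`, `H13.isGaussOver_comap_xE`, `Alg.H348.exists_mul_mem_chart`.
-/

set_option autoImplicit false
set_option linter.unusedSectionVars false
set_option linter.style.haveILetI false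
set_option synthInstance.maxHeartbeats 400000
set_option maxHeartbeats 1600000

noncomputable section

namespace Fermat.Agent.Ribet.H459

/-! ### Abstract core -/

section Abstract

variable {R F : Type*} [CommRing R] [Field F] [Algebra R F]

/-- Clearing `ϖ ^ k`: an element of `B ∩ ϖ ^ k V` has a multiple in `ϖ ^ k B` by an element of
`B` which is a unit of `V`. -/
theorem cutLoc_clear459 (B : Subalgebra R F) (V : ValuationSubring F) (w : R)
    (p₁ p₂ : Ideal B) (hBV : ∀ b ∈ B, b ∈ V)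
    (hu : A2.H48.IsUnif V (algebraMap R F w))
    (hc₁ : ∀ b : B, b ∈ p₁ ↔ (b : F) * (algebraMap R F w)⁻¹ ∈ V)
    (hinf : p₁ ⊓ p₂ = Ideal.span {algebraMap R B w}) (hnle : ¬ p₂ ≤ p₁) :
    ∀ (k : ℕ) (b : F), b ∈ B → b * (algebraMap R F w ^ k)⁻¹ ∈ V →
      ∃ c ∈ B, c ≠ 0 ∧ c⁻¹ ∈ V ∧ ∃ b' ∈ B, c * b = algebraMap R F w ^ k * b' := by
  have hϖ0 : algebraMap R F w ≠ 0 := hu.ne_zero
  obtain ⟨c₀, hc₀2, hc₀1⟩ := SetLike.not_le_iff_exists.mp hnle
  have hc₀V : (c₀ : F) ∈ V := hBV _ c₀.2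
  have hc₀0 : (c₀ : F) ≠ 0 := by
    intro h0
    apply hc₀1
    rw [hc₁, h0, zero_mul]
    exact V.zero_mem
  have hc₀inv : (c₀ : F)⁻¹ ∈ V := by
    by_contra hni
    exact hc₀1 ((hc₁ c₀).mpr (hu.gen _ hc₀V hni))
  intro k
  induction k with
  | zero =>
    intro b hb _
    refine ⟨1, B.one_mem, one_ne_zero, ?_, b, hb, ?_⟩
    · rw [inv_one]; exact V.one_mem
    · rw [pow_zero]
  | succ k ih =>
    intro b hb hbk
    have hb1 : (⟨b, hb⟩ : B) ∈ p₁ := by
      rw [hc₁]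
      have e : b * (algebraMap R F w)⁻¹ =
          algebraMap R F w ^ k * (b * (algebraMap R F w ^ (k + 1))⁻¹) := by
        rw [pow_succ]
        field_simp
      show b * (algebraMap R F w)⁻¹ ∈ V
      rw [e]
      exact V.mul_mem _ _ (pow_mem hu.mem k) hbk
    have hmem : c₀ * (⟨b, hb⟩ : B) ∈ p₁ ⊓ p₂ :=
      ⟨p₁.mul_mem_left _ hb1, p₂.mul_mem_right _ hc₀2⟩
    rw [hinf, Ideal.mem_span_singleton] at hmem
    obtain ⟨b₁, hb₁⟩ := hmem
    have hb₁F : (c₀ : F) * b = algebraMap R F w * (b₁ : F) := by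
      have := congrArg (fun z : B => (z : F)) hb₁
      simpa using this
    have hb₁k : (b₁ : F) * (algebraMap R F w ^ k)⁻¹ ∈ V := by
      have e : (b₁ : F) * (algebraMap R F w ^ k)⁻¹ =
          (c₀ : F) * (b * (algebraMap R F w ^ (k + 1))⁻¹) := by
        have h1 : (b₁ : F) = (algebraMap R F w)⁻¹ * ((c₀ : F) * b) := by
          rw [hb₁F, ← mul_assoc, inv_mul_cancel₀ hϖ0, one_mul]
        rw [h1, pow_succ]
        field_simp
      rw [e]
      exact V.mul_mem _ _ hc₀V hbk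
    obtain ⟨c₁, hc₁B, hc₁0, hc₁inv, b₂, hb₂B, hb₂⟩ := ih (b₁ : F) b₁.2 hb₁k
    refine ⟨c₁ * c₀, B.mul_mem hc₁B c₀.2, mul_ne_zero hc₁0 hc₀0, ?_, b₂, hb₂B, ?_⟩
    · rw [mul_inv]
      exact V.mul_mem _ _ hc₁inv hc₀inv
    · rw [mul_assoc, hb₁F, ← mul_assoc, mul_comm c₁, mul_assoc, hb₂, pow_succ]
      ring

/-- **CUTLOC, abstract core**: `V = B_{p₁}`, elementwise. -/
theorem cutLoc_core459 (B : Subalgebra R F) (V : ValuationSubring F) (w : R)
    (p₁ p₂ : Ideal B) (hBV : ∀ b ∈ B, b ∈ V)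
    (hu : A2.H48.IsUnif V (algebraMap R F w))
    (hval : ∀ d : F, d ≠ 0 → d ∈ V → ∃ k : ℕ, d * (algebraMap R F w ^ k)⁻¹ ∈ V ∧
      (d * (algebraMap R F w ^ k)⁻¹)⁻¹ ∈ V)
    (hc₁ : ∀ b : B, b ∈ p₁ ↔ (b : F) * (algebraMap R F w)⁻¹ ∈ V)
    (hinf : p₁ ⊓ p₂ = Ideal.span {algebraMap R B w}) (hnle : ¬ p₂ ≤ p₁)
    (hfrac : ∀ f : F, ∃ d ∈ B, d ≠ 0 ∧ d * f ∈ B) :
    ∀ f ∈ V, ∃ a b : B, b ∉ p₁ ∧ f * (b : F) = (a : F) := by
  intro f hf
  have hϖ0 : algebraMap R F w ≠ 0 := hu.ne_zero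
  obtain ⟨d, hdB, hd0, hdf⟩ := hfrac f
  obtain ⟨k, hk, hkinv⟩ := hval d hd0 (hBV d hdB)
  have hϖk0 : algebraMap R F w ^ k ≠ 0 := pow_ne_zero k hϖ0
  -- clear `ϖ ^ k` from `d`
  obtain ⟨c₂, hc₂B, hc₂0, hc₂inv, d', hd'B, hd'⟩ :=
    cutLoc_clear459 B V w p₁ p₂ hBV hu hc₁ hinf hnle k d hdB hk
  -- clear `ϖ ^ k` from `d * f`
  have hdfk : d * f * (algebraMap R F w ^ k)⁻¹ ∈ V := by
    have e : d * f * (algebraMap R F w ^ k)⁻¹ = d * (algebraMap R F w ^ k)⁻¹ * f := by ring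
    rw [e]
    exact V.mul_mem _ _ hk hf
  obtain ⟨c, hcB, hc0, hcinv, a', ha'B, ha'⟩ :=
    cutLoc_clear459 B V w p₁ p₂ hBV hu hc₁ hinf hnle k (d * f) hdf hdfk
  -- `d'` is a unit of `V`
  have hd'eq : d' = c₂ * (d * (algebraMap R F w ^ k)⁻¹) := by
    have : d' = (algebraMap R F w ^ k)⁻¹ * (c₂ * d) := by
      rw [hd', ← mul_assoc, inv_mul_cancel₀ hϖk0, one_mul]
    rw [this]; ring
  have hd'0 : d' ≠ 0 := by
    rw [hd'eq]
    exact mul_ne_zero hc₂0 (mul_ne_zero hd0 (inv_ne_zero hϖk0))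
  have hd'inv : d'⁻¹ ∈ V := by
    rw [hd'eq, mul_inv]
    exact V.mul_mem _ _ hc₂inv hkinv
  -- the fraction
  refine ⟨⟨a' * c₂, B.mul_mem ha'B hc₂B⟩, ⟨c * d', B.mul_mem hcB hd'B⟩, ?_, ?_⟩
  · intro hmem
    rw [hc₁] at hmem
    have hmem' : c * d' * (algebraMap R F w)⁻¹ ∈ V := hmem
    apply hu.inv_not_mem
    have e : (algebraMap R F w)⁻¹ = c⁻¹ * d'⁻¹ * (c * d' * (algebraMap R F w)⁻¹) := by
      field_simp
    rw [e]
    exact V.mul_mem _ _ (V.mul_mem _ _ hcinv hd'inv) hmem'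
  · show f * (c * d') = a' * c₂
    have h1 : algebraMap R F w ^ k * (f * (c * d')) = algebraMap R F w ^ k * (a' * c₂) := by
      calc algebraMap R F w ^ k * (f * (c * d'))
          = (algebraMap R F w ^ k * d') * (c * f) := by ring
        _ = (c₂ * d) * (c * f) := by rw [hd']
        _ = (c * (d * f)) * c₂ := by ring
        _ = (algebraMap R F w ^ k * a') * c₂ := by rw [ha']
        _ = algebraMap R F w ^ k * (a' * c₂) := by ring
    exact mul_left_cancel₀ hϖk0 h1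

end Abstract

/-! ### The concrete statement -/

section Concrete

open Fermat.Agent.A2.Mod

variable {P : ValuationSubring Qb} {E : IntermediateField ℚ Qb} {N : ℕ}

/-- every nonzero element of `V∞` is `w ^ k` times a unit of `V∞`. -/
theorem exists_pow_mul_unit459 [IsDiscreteValuationRing (RE P E)] {w : RE P E}
    (hw : Irreducible w) {V : ValuationSubring (FE E N)} (hV : IsVinf P E N V)
    (d : FE E N) (hd0 : d ≠ 0) (hdV : d ∈ V) :
    ∃ k : ℕ, d * (algebraMap (RE P E) (FE E N) w ^ k)⁻¹ ∈ V ∧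
      (d * (algebraMap (RE P E) (FE E N) w ^ k)⁻¹)⁻¹ ∈ V := by
  obtain ⟨c, hc0, hcu⟩ := H553.exists_const_mul_unit P E hV hd0
  have hcF : algebraMap E (FE E N) c ≠ 0 :=
    (map_ne_zero_iff _ (algebraMap E (FE E N)).injective).mpr hc0
  set u : FE E N := d * (algebraMap E (FE E N) c)⁻¹ with hu_def
  have huV : u ∈ V := (V.valuation_le_one_iff _).mp hcu.le
  have huinv : u⁻¹ ∈ V := by
    rw [← V.valuation_le_one_iff, map_inv₀, hcu, inv_one]
  have hu0 : u ≠ 0 := mul_ne_zero hd0 (inv_ne_zero hcF)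
  have hdu : d = u * algebraMap E (FE E N) c := by
    rw [hu_def, mul_assoc, inv_mul_cancel₀ hcF, mul_one]
  -- `c ∈ R_E`
  have hcV : algebraMap E (FE E N) c ∈ V := by
    have : algebraMap E (FE E N) c = u⁻¹ * d := by
      rw [hdu, ← mul_assoc, inv_mul_cancel₀ hu0, one_mul]
    rw [this]
    exact V.mul_mem _ _ huinv hdV
  have hcR : c ∈ RE P E := (H553.algebraMap_mem_iff P E hV c).mp hcV
  have hcR0 : (⟨c, hcR⟩ : RE P E) ≠ 0 := fun h => hc0 (congrArg Subtype.val h)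
  obtain ⟨k, ε, hε⟩ := IsDiscreteValuationRing.eq_unit_mul_pow_irreducible hcR0 hw
  have hεE : c = ((ε : RE P E) : E) * (w : E) ^ k := by
    have := congrArg (fun z : RE P E => (z : E)) hε
    simpa using this
  have hw0 : algebraMap (RE P E) (FE E N) w ≠ 0 := by
    rw [H13.algebraMap_RE_eq]
    refine (map_ne_zero_iff _ (algebraMap E (FE E N)).injective).mpr ?_
    intro h0
    exact hw.ne_zero (Subtype.ext h0)
  have hεV : algebraMap E (FE E N) ((ε : RE P E) : E) ∈ V :=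
    (H553.algebraMap_mem_iff P E hV _).mpr (ε : RE P E).2
  have hεinvV : (algebraMap E (FE E N) ((ε : RE P E) : E))⁻¹ ∈ V := by
    have h2 : ((ε : RE P E) : E) * (((ε⁻¹ : (RE P E)ˣ) : RE P E) : E) = 1 :=
      congrArg Subtype.val (Units.mul_inv ε)
    have h3 : (((ε⁻¹ : (RE P E)ˣ) : RE P E) : E) = ((ε : RE P E) : E)⁻¹ :=
      eq_inv_of_mul_eq_one_right h2
    rw [← map_inv₀, ← h3]
    exact (H553.algebraMap_mem_iff P E hV _).mpr (((ε⁻¹ : (RE P E)ˣ) : RE P E)).2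
  have hεF0 : algebraMap E (FE E N) ((ε : RE P E) : E) ≠ 0 := by
    intro h0
    have : algebraMap E (FE E N) c = 0 := by
      rw [hεE, map_mul, h0, zero_mul]
    exact hcF this
  have key : d * (algebraMap (RE P E) (FE E N) w ^ k)⁻¹ =
      u * algebraMap E (FE E N) ((ε : RE P E) : E) := by
    rw [hdu, hεE, map_mul, map_pow, H13.algebraMap_RE_eq]
    have hwk : algebraMap E (FE E N) (w : E) ^ k ≠ 0 := by
      rw [← H13.algebraMap_RE_eq]
      exact pow_ne_zero k hw0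
    field_simp
  refine ⟨k, ?_, ?_⟩
  · rw [key]
    exact V.mul_mem _ _ huV hεV
  · rw [key, mul_inv]
    exact V.mul_mem _ _ huinv hεinvV

/-- the same for `V₀ = V∞ ∘ W`. -/
theorem exists_pow_mul_unit_comap459 [IsDiscreteValuationRing (RE P E)] {w : RE P E}
    (hw : Irreducible w) {V : ValuationSubring (FE E N)} (hV : IsVinf P E N V)
    (W : FE E N ≃ₐ[E] FE E N)
    (d : FE E N) (hd0 : d ≠ 0) (hdV : d ∈ V.comap (W : FE E N →+* FE E N)) :
    ∃ k : ℕ, d * (algebraMap (RE P E) (FE E N) w ^ k)⁻¹ ∈ V.comap (W : FE E N →+* FE E N) ∧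
      (d * (algebraMap (RE P E) (FE E N) w ^ k)⁻¹)⁻¹ ∈ V.comap (W : FE E N →+* FE E N) := by
  have hWd0 : W d ≠ 0 := (map_ne_zero_iff _ W.injective).mpr hd0
  have hWdV : W d ∈ V := hdV
  obtain ⟨k, hk, hkinv⟩ := exists_pow_mul_unit459 hw hV (W d) hWd0 hWdV
  have hWw : W (algebraMap (RE P E) (FE E N) w) = algebraMap (RE P E) (FE E N) w := by
    rw [H13.algebraMap_RE_eq]
    exact W.commutes _
  have e : W (d * (algebraMap (RE P E) (FE E N) w ^ k)⁻¹) =
      W d * (algebraMap (RE P E) (FE E N) w ^ k)⁻¹ := by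
    rw [map_mul, map_inv₀, map_pow, hWw]
  refine ⟨k, ?_, ?_⟩
  · show W (d * (algebraMap (RE P E) (FE E N) w ^ k)⁻¹) ∈ V
    rw [e]
    exact hk
  · show W (d * (algebraMap (RE P E) (FE E N) w ^ k)⁻¹)⁻¹ ∈ V
    rw [map_inv₀, e]
    exact hkinv

end Concrete

section Main

open Fermat.Agent.A2.Mod

/-- **CUTLOC** (`H220.CutLocStatement`, VERBATIM). -/
theorem cutLoc : H220.CutLocStatement := by
  intro P E M q _ _ w hS V W hV hW y hy p₁ p₂ hcut₁ hcut₂
  haveI := hS.dvr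
  have hS1 : A2.Mod.S1Statement P E M q w :=
    H13.s1 (H553.vzeroNe P E M q w) (H31.deg E M q) (H753.indInf P E M q w)
      (H753.indZero P E M q w)
  obtain ⟨q₁, q₂, hq₁, hq₂, -, -, h₁₂, h₂₁, hinf⟩ := hS1 hS V W hV hW y hy
  have e₁ : q₁ = p₁ := Ideal.ext fun b => by rw [hq₁ b, hcut₁ b]
  have e₂ : q₂ = p₂ := Ideal.ext fun b => by rw [hq₂ b, hcut₂ b]
  rw [e₁, e₂] at hinf h₁₂ h₂₁
  obtain ⟨htr, hfr, -⟩ := H31.deg E M q hS.q_prime hS.q_not_dvd
  have hu : A2.H48.IsUnif V (cE P E (M * q) w) :=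
    (H553.vinfBasic P E w (M * q) (NeZero.ne _) hS.dvr hS.unif V hV).1
  have hu₂ := H13.isUnif_comap hu W
  have hG₁ := H13.isGaussOver_xE hS.unif hV htr
  have hG₂ := H13.isGaussOver_comap_xE hS.unif hV hW htr
  have hpos : 0 < Module.finrank (IntermediateField.adjoin E ({xE E M q} : Set (FE E (M * q))))
      (FE E (M * q)) := by
    rw [hfr]
    have h1 := dedekindPsi_pos_of_ne_zero M (NeZero.ne M)
    positivity
  have hfin : FiniteDimensional (IntermediateField.adjoin E ({xE E M q} : Set (FE E (M * q))))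
      (FE E (M * q)) := Module.finite_of_finrank_pos hpos
  have hfin_y : FiniteDimensional (IntermediateField.adjoin E ({y} : Set (FE E (M * q))))
      (FE E (M * q)) := by
    rcases hy with rfl | rfl
    · exact hfin
    · have hE : IntermediateField.adjoin E ({(xE E M q)⁻¹} : Set (FE E (M * q))) =
          IntermediateField.adjoin E ({xE E M q} : Set (FE E (M * q))) :=
        A2.H489.adjoin_inv_eq E (xE E M q)
      have key : ∀ (K : IntermediateField E (FE E (M * q))),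
          K = IntermediateField.adjoin E ({xE E M q} : Set (FE E (M * q))) →
          FiniteDimensional K (FE E (M * q)) := by
        rintro K rfl
        exact hfin
      exact key _ hE
  have hyV : y ∈ V := by
    rcases hy with rfl | rfl
    · exact hG₁.mem
    · exact hG₁.inv.mem
  have hyV₀ : y ∈ V.comap (W : FE E (M * q) →+* FE E (M * q)) := by
    rcases hy with rfl | rfl
    · exact hG₂.mem
    · exact hG₂.inv.mem
  have hBV : ∀ b ∈ chartAlg P E (M * q) y, b ∈ V := fun b hb =>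
    H751.mem_valuationSubring_of_isIntegral_adjoin V (fun r => hG₁.isOver.mem r) hyV hb
  have hBV₀ : ∀ b ∈ chartAlg P E (M * q) y,
      b ∈ V.comap (W : FE E (M * q) →+* FE E (M * q)) := fun b hb =>
    H751.mem_valuationSubring_of_isIntegral_adjoin _ (fun r => hG₂.isOver.mem r) hyV₀ hb
  have hfrac : ∀ f : FE E (M * q), ∃ d ∈ chartAlg P E (M * q) y, d ≠ 0 ∧
      d * f ∈ chartAlg P E (M * q) y := by
    intro f
    obtain ⟨a, ha, ha0, haf⟩ :=
      A2.Alg.H348.exists_mul_mem_chart (R := RE P E) (E := E) hfin_y f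
    exact ⟨a, Fermat.Agent.S18.H138.adjoin_le_chart _ ha, ha0, haf⟩
  refine ⟨?_, ?_⟩
  · exact cutLoc_core459 (chartAlg P E (M * q) y) V w p₁ p₂ hBV hu
      (exists_pow_mul_unit459 hS.unif hV) (fun b => hcut₁ b) hinf h₂₁ hfrac
  · exact cutLoc_core459 (chartAlg P E (M * q) y)
      (V.comap (W : FE E (M * q) →+* FE E (M * q))) w p₂ p₁ hBV₀ hu₂
      (exists_pow_mul_unit_comap459 hS.unif hV W) (fun b => hcut₂ b)
      (by rw [inf_comm]; exact hinf) h₁₂ hfrac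

end Main

end Fermat.Agent.Ribet.H459

end
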